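import Mathlib
import Fermat.Agent.BR.SS.InputsLattice

/-!
# PROGRAMME I (S33 long shot), design contract D-B4 = (B-iv) ALGEBRAISATION (helper22)

SIGNATURES ONLY (no proofs): `def … : Prop` statements, written against main's Program B
(`BR/SS`): `SemistableSetup`, `Oall`, `resAll`, `push`, `graphNodes`, `gluedRR`, `LiftLarge`,
`TwoLatticeProp`, `IsModulus`.

Constants.  `(K, A) = (ℚ̄, B)` as on main (rank one, NOT discrete); `S` the semistable setup of
`F = ℚ̄(X₀(pM))`.  `F₀ ≤ F` = the subfield of `K'`-rational functions, `K'` a finite extension of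
`ℚ_p^unr ∩ ℚ̄` (discretely valued, uniformiser `ϖ`, same residue field `k`), chosen LAST: it contains
`μ_{p^m}`, a field of definition of `(D, f, E₀, E₁)` and of the `2d` lifts of `ratLift_of_lifts`.
The completions `Lh v` of `F₀` at the Gauss valuations are complete DISCRETELY valued fields; the
constant field is never completed.  The conclusion lives over `ℚ̄` (no descent step).

* `AnMod` : the interface required from D-B3 (expansion layer) = "integral analytic sections with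
  poles `≤ E'`" as a subgroup `sec E'` of `∏ v, Ôh v`;
* `RatLift` : `F₀`-rational lifting of `gluedRR (push E')` (free, see `RatLiftOfLifts`);
* `RungeStatement` (B4-1), `PrincipalOfSectionStatement` (B4-2 = (B-iv)).
-/

set_option autoImplicit false

namespace Fermat.Agent.FF3.B4

open AlgebraicCurve Fermat.Agent.Red Fermat.Agent.BR.SS Fermat.Agent.BR.GlueG

universe u₁ u₂ u₃ u₄ u₅ u₆ w

variable {K : Type u₁} {F : Type u₂} {k : Type u₃} [Field K] [Field F] [Algebra K F] [Field k]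
  {A : ValuationSubring K} {π : A →+* k} {ι : Type u₄} {Ft : ι → Type u₅}
  [∀ v, Field (Ft v)] [∀ v, Algebra k (Ft v)] {ν : Type u₆}

/-- **Interface required from D-B3**: completions `Lh v ⊇ F₀` at the Gauss valuations with their
valuation rings and residue maps, and for every divisor `E'` (supported on smooth places) the group
`sec E'` of families `z = (z_v) ∈ ∏ Ôh v` which are "analytic with poles `≤ E'`" (D-B3: the image of
`z_v` in the boundary ring `E_{v,Q}` of every smooth closed point `Q` lies in `P_{E',Q}⁻¹ • W⟦T_Q⟧`, and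
at every node `s` the images of `z_src`, `z_tgt` in `E_X`, `E_Y` come from ONE element of `R_s`). -/
structure AnMod (S : SemistableSetup (F := F) A π ι Ft ν)
    (hdeg : ∀ v (Q : Place k (Ft v)), Q.deg = 1) (F₀ : Subfield F) (ϖ : F₀) where
  /-- the completion of `F₀` at the Gauss valuation of the component `v` -/
  Lh : ι → Type w
  [instField : ∀ v, Field (Lh v)]
  /-- its valuation ring -/
  Oh : ∀ v, ValuationSubring (Lh v)
  emb : ∀ v, F₀ →+* Lh v
  emb_mem_iff : ∀ v (x : F₀), emb v x ∈ Oh v ↔ (x : F) ∈ S.O v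
  /-- the residue maps (same residue fields `Ft v`) -/
  resh : ∀ v, Oh v →+* Ft v
  resh_emb : ∀ v (x : F₀) (hx : (x : F) ∈ S.O v),
    resh v ⟨emb v x, (emb_mem_iff v x).2 hx⟩ = S.res v ⟨x, hx⟩
  /-- the admissible divisors (D-B3: the divisors all of whose points have smooth reduction and are
  rational over the level `F₀`, so that the pole factors on the discs are defined over `F₀`) -/
  Adm : Divisor K F → Prop
  /-- integral analytic sections with poles `≤ E'` -/
  sec : Divisor K F → AddSubgroup (∀ v, Oh v)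
  sec_mono : ∀ {E' E'' : Divisor K F}, Adm E' → Adm E'' → E' ≤ E'' → sec E' ≤ sec E''
  /-- (i) rational functions of `L(E') ∩ Oall ∩ F₀` are analytic sections -/
  rat_mem : ∀ (E' : Divisor K F), Adm E' → ∀ (h : F₀), (h : F) ∈ riemannRochSpace E' →
    ∀ hO : (h : F) ∈ S.Oall,
      (fun v => (⟨emb v h, (emb_mem_iff v h).2 (S.mem_Oall.1 hO v)⟩ : Oh v)) ∈ sec E'
  /-- (ii) the residue tuple of an analytic section lies in the glued Riemann–Roch space
  (regularity at the smooth points from `W⟦T⟧ → k⟦T⟧`, matching at the nodes from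
  `R_s / ϖ = k⟦X,Y⟧/(XY)`) -/
  red_mem : ∀ E' : Divisor K F, Adm E' → (∀ P ∈ E'.support, S.IsSmoothPlace P) → ∀ z ∈ sec E',
    (fun v => resh v (z v)) ∈ gluedRR (S.graphNodes hdeg) (S.push E')
  /-- (iii) saturation (uses DISCRETENESS: `W⟦T⟧ ∩ ϖ E° = ϖ W⟦T⟧`, `R_s ∩ ϖ(E_X° × E_Y°) = ϖ R_s`) -/
  div_mem : ∀ E' : Divisor K F, Adm E' → ∀ z ∈ sec E', (∀ v, resh v (z v) = 0) →
    ∃ z' ∈ sec E', ∀ v, ((z v : Oh v) : Lh v) = emb v ϖ * ((z' v : Oh v) : Lh v)

attribute [instance] AnMod.instField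

variable (S : SemistableSetup (F := F) A π ι Ft ν)
  (hdeg : ∀ v (Q : Place k (Ft v)), Q.deg = 1) (F₀ : Subfield F) (ϖ : F₀)

/-- `F₀`-rational lifting of the glued Riemann–Roch space of `push E'`. -/
def RatLift (E' : Divisor K F) : Prop :=
  ∀ t ∈ gluedRR (S.graphNodes hdeg) (S.push E'),
    ∃ h : F₀, (h : F) ∈ riemannRochSpace E' ∧ (h : F) ∈ S.Oall ∧ S.resAll (h : F) = t

/-- (B4-3, FREE) `RatLift E'` as soon as `F₀` contains the constants of a subfield `K' ≤ K` whose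
valuation ring surjects onto `k`, and lifts `b i ∈ L(E') ∩ Oall ∩ F₀` of a spanning family of
`gluedRR (push E')` (main: `S.liftLarge_of_resRank`, `BR/SS/LiftLarge.lean`, gives lifts over `ℚ̄`;
finitely many functions, so they are `K'`-rational after enlarging `K'`). -/
def RatLiftOfLiftsStatement : Prop :=
  ∀ (E' : Divisor K F) (K' : Subfield K), (∀ c : K', algebraMap K F (c : K) ∈ F₀) →
    (∀ cb : k, ∃ c : K', ∃ hc : (c : K) ∈ A, π ⟨c, hc⟩ = cb) →
    ∀ (d : ℕ) (b : Fin d → F₀), (∀ i, (b i : F) ∈ riemannRochSpace E' ∧ (b i : F) ∈ S.Oall) →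
      (gluedRR (S.graphNodes hdeg) (S.push E') ≤
        Submodule.span k (Set.range fun i => S.resAll (b i : F))) →
      RatLift S hdeg F₀ E'

variable {S hdeg F₀ ϖ}

/-- The family of `∏ Ôh v` attached to an integral rational function. -/
def AnMod.ofRat (𝒜 : AnMod.{u₁, u₂, u₃, u₄, u₅, u₆, w} S hdeg F₀ ϖ) (h : F₀)
    (hO : (h : F) ∈ S.Oall) : ∀ v, 𝒜.Oh v :=
  fun v => ⟨𝒜.emb v h, (𝒜.emb_mem_iff v h).2 (S.mem_Oall.1 hO v)⟩

/-- **(B4-1) RUNGE**: an analytic section with poles `≤ E'` is approximated modulo `ϖ ^ n` by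
elements of `L(E') ∩ Oall ∩ F₀` (iteration: `red_mem` → `RatLift` → subtract → `div_mem`). -/
def RungeStatement (𝒜 : AnMod.{u₁, u₂, u₃, u₄, u₅, u₆, w} S hdeg F₀ ϖ) : Prop :=
  ∀ E' : Divisor K F, 𝒜.Adm E' → (∀ P ∈ E'.support, S.IsSmoothPlace P) →
    RatLift S hdeg F₀ E' →
    ∀ y ∈ 𝒜.sec E', ∀ n : ℕ, ∃ h : F₀, (h : F) ∈ riemannRochSpace E' ∧ (h : F) ∈ S.Oall ∧
      ∃ z ∈ 𝒜.sec E',
        ∀ v, ((y v : 𝒜.Oh v) : 𝒜.Lh v) - 𝒜.emb v h = 𝒜.emb v ϖ ^ n * ((z v : 𝒜.Oh v) : 𝒜.Lh v)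

/-- **(B4-2) = (B-iv) ALGEBRAISATION**: a nowhere-vanishing integral analytic section `y` of
`O(-D)` (i.e. `y ∈ sec (-D)`, some residue `≠ 0`; in the application `y ^ (p ^ m) = f`,
`div f = p ^ m • D`) makes `D` principal OVER `K = ℚ̄`.  Inputs from main: `TwoLatticeProp A S.Oall`
(`S.twoLatticeProp ht`, `BR/SS/InputsLattice.lean`), rank one (to compare `ϖ ^ n` with an
arbitrary modulus), Riemann's theorem on `F`. -/
def PrincipalOfSectionStatement (𝒜 : AnMod.{u₁, u₂, u₃, u₄, u₅, u₆, w} S hdeg F₀ ϖ) : Prop :=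
  IsRankOne A → RiemannPkg K F → TwoLatticeProp A S.Oall →
  (∃ a : K, IsModulus A a ∧ ((ϖ : F₀) : F) = algebraMap K F a) →
  ∀ (D E₀ E₁ : Divisor K F), Divisor.degree D = 0 → 0 ≤ E₀ → 0 ≤ E₁ →
    (∀ P, E₀ P = 0 ∨ E₁ P = 0) →
    (∀ P ∈ D.support, S.IsSmoothPlace P) → (∀ P ∈ E₀.support, S.IsSmoothPlace P) →
    (∀ P ∈ E₁.support, S.IsSmoothPlace P) →
    𝒜.Adm (-D) → 𝒜.Adm (-D + E₀) → 𝒜.Adm (-D + E₁) →
    RatLift S hdeg F₀ (-D + E₀) → RatLift S hdeg F₀ (-D + E₁) →
    ∀ y ∈ 𝒜.sec (-D), (∃ v, 𝒜.resh v (y v) ≠ 0) →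
      D ∈ Divisor.principal (K := K) (F := F)

end Fermat.Agent.FF3.B4
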