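import Mathlib
import Fermat.Agent.FF3.B4.Contract

/-!
# PROGRAMME I (S33 long shot), block D-B4: (B4-3) rational lifting and (B4-1) Runge approximation

Proofs of `RatLiftOfLiftsStatement` and `RungeStatement` of `FF3/B4/Contract.lean` against the
abstract interface `AnMod` (no dependency on the expansion layer).
-/

set_option autoImplicit false

namespace Fermat.Agent.FF3.B4

open AlgebraicCurve Fermat.Agent.Red Fermat.Agent.BR.SS Fermat.Agent.BR.GlueG

universe u₁ u₂ u₃ u₄ u₅ u₆ w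

variable {K : Type u₁} {F : Type u₂} {k : Type u₃} [Field K] [Field F] [Algebra K F] [Field k]
  {A : ValuationSubring K} {π : A →+* k} {ι : Type u₄} {Ft : ι → Type u₅}
  [∀ v, Field (Ft v)] [∀ v, Algebra k (Ft v)] {ν : Type u₆}
  {S : SemistableSetup (F := F) A π ι Ft ν}
  {hdeg : ∀ v (Q : Place k (Ft v)), Q.deg = 1} {F₀ : Subfield F} {ϖ : F₀}

/-- **(B4-3)** rational lifting from finitely many rational lifts spanning the residue space. -/
theorem ratLiftOfLifts : RatLiftOfLiftsStatement S hdeg F₀ := by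
  classical
  intro E' K' hK' hsurj d b hb hspan t ht
  have ht' := hspan ht
  rw [Submodule.mem_span_range_iff_exists_fun] at ht'
  obtain ⟨cb, hcb⟩ := ht'
  choose c hcA hc using fun i => hsurj (cb i)
  refine ⟨∑ i, (⟨algebraMap K F (c i : K), hK' (c i)⟩ : F₀) * b i, ?_, ?_, ?_⟩
  · have : ((∑ i, (⟨algebraMap K F (c i : K), hK' (c i)⟩ : F₀) * b i : F₀) : F) =
        ∑ i, (c i : K) • (b i : F) := by
      rw [← Subfield.subtype_apply, map_sum]
      refine Finset.sum_congr rfl fun i _ => ?_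
      rw [Subfield.subtype_apply, Subfield.coe_mul, Algebra.smul_def]
    rw [this]
    exact Submodule.sum_mem _ fun i _ => Submodule.smul_mem _ _ (hb i).1
  · have : ((∑ i, (⟨algebraMap K F (c i : K), hK' (c i)⟩ : F₀) * b i : F₀) : F) =
        ∑ i, (c i : K) • (b i : F) := by
      rw [← Subfield.subtype_apply, map_sum]
      refine Finset.sum_congr rfl fun i _ => ?_
      rw [Subfield.subtype_apply, Subfield.coe_mul, Algebra.smul_def]
    rw [this]
    exact S.sum_mem _ _ fun i _ => S.smul_mem (hcA i) (hb i).2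
  · have : ((∑ i, (⟨algebraMap K F (c i : K), hK' (c i)⟩ : F₀) * b i : F₀) : F) =
        ∑ i, (c i : K) • (b i : F) := by
      rw [← Subfield.subtype_apply, map_sum]
      refine Finset.sum_congr rfl fun i _ => ?_
      rw [Subfield.subtype_apply, Subfield.coe_mul, Algebra.smul_def]
    rw [this, S.resAll_sum _ _ fun i _ => S.smul_mem (hcA i) (hb i).2, ← hcb]
    refine Finset.sum_congr rfl fun i _ => ?_
    rw [S.resAll_smul (hcA i) (hb i).2, hc i]

/-- The residues of the family attached to an integral rational function. -/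
theorem AnMod.resh_ofRat (𝒜 : AnMod.{u₁, u₂, u₃, u₄, u₅, u₆, w} S hdeg F₀ ϖ) (h : F₀)
    (hO : (h : F) ∈ S.Oall) (v : ι) : 𝒜.resh v (𝒜.ofRat h hO v) = S.resAll (h : F) v := by
  rw [SemistableSetup.resAll_apply, S.resF_of_mem (S.mem_Oall.1 hO v)]
  exact 𝒜.resh_emb v h (S.mem_Oall.1 hO v)

/-- **(B4-1) RUNGE.** -/
theorem runge (𝒜 : AnMod.{u₁, u₂, u₃, u₄, u₅, u₆, w} S hdeg F₀ ϖ)
    (hϖ : ∃ a : K, a ∈ A ∧ ((ϖ : F₀) : F) = algebraMap K F a) : RungeStatement 𝒜 := by
  intro E' hadm hE' hlift y hy n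
  obtain ⟨a, haA, ha⟩ := hϖ
  induction n with
  | zero =>
    refine ⟨0, ?_, ?_, y, hy, fun v => ?_⟩
    · rw [Subfield.coe_zero]; exact Submodule.zero_mem _
    · rw [Subfield.coe_zero]; exact S.Oall.zero_mem
    · rw [map_zero, sub_zero, pow_zero, one_mul]
  | succ n ih =>
    obtain ⟨h, hhL, hhO, z, hz, hyz⟩ := ih
    -- lift the residue tuple of the remainder
    obtain ⟨h', hh'L, hh'O, hh'res⟩ := hlift _ (𝒜.red_mem E' hadm hE' z hz)
    -- the new remainder has zero residues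
    have hz2 : z - 𝒜.ofRat h' hh'O ∈ 𝒜.sec E' :=
      (𝒜.sec E').sub_mem hz (𝒜.rat_mem E' hadm h' hh'L hh'O)
    have hres0 : ∀ v, 𝒜.resh v ((z - 𝒜.ofRat h' hh'O) v) = 0 := by
      intro v
      rw [Pi.sub_apply, map_sub, 𝒜.resh_ofRat h' hh'O v, hh'res, sub_self]
    obtain ⟨z', hz', hzz'⟩ := 𝒜.div_mem E' hadm _ hz2 hres0
    -- the new approximant
    have hcoe : ((h + ϖ ^ n * h' : F₀) : F) = (h : F) + (a ^ n) • (h' : F) := by
      rw [Subfield.coe_add, Subfield.coe_mul, SubmonoidClass.coe_pow, ha, Algebra.smul_def, map_pow]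
    refine ⟨h + ϖ ^ n * h', ?_, ?_, z', hz', fun v => ?_⟩
    · rw [hcoe]
      exact Submodule.add_mem _ hhL (Submodule.smul_mem _ _ hh'L)
    · rw [hcoe]
      exact S.Oall.add_mem hhO (S.smul_mem (pow_mem haA n) hh'O)
    · have h1 := hyz v
      have h2 := hzz' v
      have h3 : (((z - 𝒜.ofRat h' hh'O) v : 𝒜.Oh v) : 𝒜.Lh v) =
          ((z v : 𝒜.Oh v) : 𝒜.Lh v) - 𝒜.emb v h' := rfl
      rw [h3] at h2
      rw [map_add, map_mul, map_pow, pow_succ]
      linear_combination h1 + (𝒜.emb v ϖ) ^ n * h2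

end Fermat.Agent.FF3.B4
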