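import Mathlib
import Fermat.Agent.FF3.B4.Runge
import Fermat.Agent.Red.ChartInst

/-!
# PROGRAMME I (S33 long shot), block D-B4: (B4-2) = (B-iv) ALGEBRAISATION

`principalOfSection : PrincipalOfSectionStatement 𝒜` for every instance `𝒜` of the interface
`AnMod`: a nowhere-vanishing integral analytic section of `O(-D)` makes `D` principal over `K`.
Runge approximants modulo `ϖ ^ n` (`runge`) for the two auxiliary divisors `-D + E₀`, `-D + E₁`
feed main's two-lattice lemma `TwoLatticeProp A S.Oall`.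
-/

set_option autoImplicit false

namespace Fermat.Agent.FF3.B4

open AlgebraicCurve Fermat.Agent.Red Fermat.Agent.BR.SS Fermat.Agent.BR.GlueG

universe u₁ u₂ u₃ u₄ u₅ u₆ w

variable {K : Type u₁} {F : Type u₂} {k : Type u₃} [Field K] [Field F] [Algebra K F] [Field k]
  {A : ValuationSubring K} {π : A →+* k} {ι : Type u₄} {Ft : ι → Type u₅}
  [∀ v, Field (Ft v)] [∀ v, Algebra k (Ft v)] {ν : Type u₆}
  {S : SemistableSetup (F := F) A π ι Ft ν}
  {hdeg : ∀ v (Q : Place k (Ft v)), Q.deg = 1} {F₀ : Subfield F} {ϖ : F₀}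

/-- **(B4-2) = (B-iv).** -/
theorem principalOfSection (𝒜 : AnMod.{u₁, u₂, u₃, u₄, u₅, u₆, w} S hdeg F₀ ϖ) :
    PrincipalOfSectionStatement 𝒜 := by
  classical
  intro hA hF htwo hϖ D E₀ E₁ hdeg0 hE₀ hE₁ hdisj hDsm hE₀sm hE₁sm hadm hadm₀ hadm₁ hl₀ hl₁ y hy
    hyne
  obtain ⟨a₀, ha₀, hϖa⟩ := hϖ
  obtain ⟨v₀, hv₀⟩ := hyne
  haveI : Nonempty ι := ⟨v₀⟩
  have hϖ' : ∃ a : K, a ∈ A ∧ ((ϖ : F₀) : F) = algebraMap K F a := ⟨a₀, ha₀.mem, hϖa⟩
  -- supports
  have hsm : ∀ E : Divisor K F, (∀ P ∈ E.support, S.IsSmoothPlace P) →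
      ∀ P ∈ (-D + E).support, S.IsSmoothPlace P := by
    intro E hE P hP
    rw [Finsupp.mem_support_iff, Finsupp.add_apply, Finsupp.neg_apply] at hP
    by_cases hDP : D P = 0
    · refine hE P (Finsupp.mem_support_iff.2 fun h0 => hP ?_)
      rw [hDP, h0, neg_zero, add_zero]
    · exact hDsm P (Finsupp.mem_support_iff.2 hDP)
  have hy₀ : y ∈ 𝒜.sec (-D + E₀) := 𝒜.sec_mono hadm hadm₀ (le_add_of_nonneg_right hE₀) hy
  have hy₁ : y ∈ 𝒜.sec (-D + E₁) := 𝒜.sec_mono hadm hadm₁ (le_add_of_nonneg_right hE₁) hy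
  -- it suffices that `L(-D) ≠ ⊥`
  have hnegdeg : Divisor.degree (-D) = 0 := by rw [map_neg, hdeg0, neg_zero]
  have key : riemannRochSpace (-D) ≠ ⊥ := by
    have hne := htwo (riemannRochSpace (-D + E₀)) (riemannRochSpace (-D + E₁)) (hF.finite_L _)
      (hF.finite_L _) (by
        intro a ha
        -- `ϖ ^ (n + 1) ∈ a • A`
        obtain ⟨n, c, hc, hnc⟩ := IsRankOne.exists_pow_eq hA ha₀.mem
          (fun h => ha₀.inv_not_mem h.2) ha.mem ha.ne_zero
        obtain ⟨h₀, hh₀L, hh₀O, z₀, hz₀, hyz₀⟩ :=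
          runge 𝒜 hϖ' (-D + E₀) hadm₀ (hsm E₀ hE₀sm) hl₀ y hy₀ (n + 1)
        obtain ⟨h₁, hh₁L, hh₁O, z₁, hz₁, hyz₁⟩ :=
          runge 𝒜 hϖ' (-D + E₁) hadm₁ (hsm E₁ hE₁sm) hl₁ y hy₁ (n + 1)
        -- the quotient `(h₀ - h₁) / ϖ ^ (n+1)` is integral on every component
        have hϖ0 : (ϖ : F₀) ≠ 0 := by
          intro h0
          have : algebraMap K F a₀ = 0 := by rw [← hϖa, h0, Subfield.coe_zero]
          exact ha₀.ne_zero ((map_eq_zero _).1 this)
        set μ' : F₀ := (h₀ - h₁) / ϖ ^ (n + 1) with hμ'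
        have hμeq : (h₀ - h₁ : F₀) = ϖ ^ (n + 1) * μ' := by
          rw [hμ', mul_div_cancel₀ _ (pow_ne_zero _ hϖ0)]
        have hμO : ((μ' : F₀) : F) ∈ S.Oall := by
          rw [S.mem_Oall]
          intro v
          rw [← 𝒜.emb_mem_iff v μ']
          have hembϖ : 𝒜.emb v ϖ ≠ 0 := (map_ne_zero (𝒜.emb v)).2 hϖ0
          have h1 : 𝒜.emb v ϖ ^ (n + 1) * 𝒜.emb v μ' =
              𝒜.emb v ϖ ^ (n + 1) * (((z₁ v : 𝒜.Oh v) : 𝒜.Lh v) - ((z₀ v : 𝒜.Oh v) : 𝒜.Lh v)) := by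
            have e := congrArg (𝒜.emb v) hμeq
            rw [map_sub, map_mul, map_pow] at e
            rw [← e]
            linear_combination hyz₁ v - hyz₀ v
          have h2 := mul_left_cancel₀ (pow_ne_zero (n + 1) hembϖ) h1
          rw [h2]
          exact (𝒜.Oh v).sub_mem (z₁ v).2 (z₀ v).2
        -- `h₀ - h₁ = a • μ`
        have hrel : ((h₀ : F₀) : F) - ((h₁ : F₀) : F) = a • ((c * a₀) • ((μ' : F₀) : F)) := by
          have e := congrArg (Subfield.subtype F₀) hμeq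
          simp only [Subfield.subtype_apply, Subfield.coe_sub, Subfield.coe_mul,
            SubmonoidClass.coe_pow] at e
          rw [e, hϖa, ← map_pow, pow_succ, hnc, smul_smul, Algebra.smul_def]
          congr 2
          ring
        refine ⟨h₀, hh₀L, h₁, hh₁L, (c * a₀) • ((μ' : F₀) : F),
          S.smul_mem (A.mul_mem _ _ hc ha₀.mem) hμO, hh₁O, ?_, hrel⟩
        -- `h₁` has the residue of `y` on the component `v₀`
        intro hsmall
        have hres := congrFun (S.resAll_eq_zero_of_isSmall hsmall) v₀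
        apply hv₀
        have hz₁' : (((y v₀ : 𝒜.Oh v₀) : 𝒜.Lh v₀)) =
            ((𝒜.ofRat h₁ hh₁O v₀ : 𝒜.Oh v₀) : 𝒜.Lh v₀) +
              ((⟨𝒜.emb v₀ ϖ, (𝒜.emb_mem_iff v₀ ϖ).2 (by
                  rw [hϖa]; exact S.mem_Oall.1 (S.algebraMap_mem ha₀.mem) v₀)⟩ ^ (n + 1) * z₁ v₀ :
                𝒜.Oh v₀) : 𝒜.Lh v₀) := by
          have := hyz₁ v₀
          show _ = 𝒜.emb v₀ h₁ + 𝒜.emb v₀ ϖ ^ (n + 1) * _
          linear_combination this
        have hyeq : y v₀ = 𝒜.ofRat h₁ hh₁O v₀ +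
            ⟨𝒜.emb v₀ ϖ, (𝒜.emb_mem_iff v₀ ϖ).2 (by
              rw [hϖa]; exact S.mem_Oall.1 (S.algebraMap_mem ha₀.mem) v₀)⟩ ^ (n + 1) * z₁ v₀ :=
          Subtype.ext hz₁'
        have hϖres : 𝒜.resh v₀ ⟨𝒜.emb v₀ ϖ, (𝒜.emb_mem_iff v₀ ϖ).2 (by
            rw [hϖa]; exact S.mem_Oall.1 (S.algebraMap_mem ha₀.mem) v₀)⟩ = 0 := by
          have hmem : ((ϖ : F₀) : F) ∈ S.O v₀ := by
            rw [hϖa]; exact S.mem_Oall.1 (S.algebraMap_mem ha₀.mem) v₀
          rw [𝒜.resh_emb v₀ ϖ hmem]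
          have : (⟨((ϖ : F₀) : F), hmem⟩ : S.O v₀) =
              ⟨algebraMap K F a₀, (S.algebraMap_mem_iff v₀ a₀).2 ha₀.mem⟩ := Subtype.ext hϖa
          rw [this, S.res_algebraMap v₀ a₀ ha₀.mem,
            S.pi_eq_zero_of_not_unit ha₀.mem (fun h => ha₀.inv_not_mem h.2), map_zero]
        rw [hyeq, map_add, map_mul, map_pow, hϖres, zero_pow (Nat.succ_ne_zero n), zero_mul,
          add_zero, 𝒜.resh_ofRat h₁ hh₁O v₀]
        exact hres)
    -- a nonzero element of the intersection lies in `L(-D)`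
    obtain ⟨s, hs, hs0⟩ := (Submodule.ne_bot_iff _).mp hne
    rw [Submodule.ne_bot_iff]
    refine ⟨s, ?_, hs0⟩
    rw [mem_riemannRochSpace_iff]
    intro P
    right
    have h0 := (mem_riemannRochSpace_iff.mp hs.1 P).resolve_left hs0
    have h1 := (mem_riemannRochSpace_iff.mp hs.2 P).resolve_left hs0
    rw [Finsupp.add_apply] at h0 h1
    rcases hdisj P with h | h
    · rw [h, add_zero] at h0
      exact h0
    · rw [h, add_zero] at h1
      exact h1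
  have hneg : -D ∈ Divisor.principal (K := K) (F := F) :=
    mem_principal_of_degree_eq_zero_of_ne_bot hF hnegdeg key
  have := (Divisor.principal (K := K) (F := F)).neg_mem hneg
  rwa [neg_neg] at this

end Fermat.Agent.FF3.B4
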