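import Mathlib
import Fermat.Agent.FF3.B4.Ending

/-!
# PROGRAMME I (S33 long shot), D-B4: the `AnMod` instance from an abstract expansion package, and
the BRIDGE `compatible root family ⇒ section of O(-D)` (= B4-4 + the output of D-B2) (helper22)

`ExpPack S hdeg F₀ ϖ` is the exact shopping list D-B4 asks of the expansion layer D-B3, in abstract
form (no norms, no topology, no concrete rings):

* component part: `Lh v`, `Oh v`, `emb v`, `resh v` (helper21's `DVCompl`);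
* node part, one diagram per node `e`:  `Oh (src e) --b1--> B1 e <--a1-- R e --a2--> B2 e <--b2-- Oh (tgt e)`
  (the SAME diagram as `Glue.Node` of the lead's D-B2, integral version) with three facts
  `node_rat` (a rational function integral on both components and without poles in the tube comes
  from `R e`: normality of the finite-level local ring + `nodeExpand`), `node_red` (Taylor on the
  residue: the two reductions are regular at the two branches with EQUAL values), `node_div`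
  (saturation `R ∩ ϖ B1 ∩ ϖ B2 = ϖ R`, DISCRETENESS);
* disc part, one diagram per smooth closed point `x = ⟨v, Q⟩`:  `Oh v --bT--> ET x <--dT-- Dk x`
  (`Dk x = W⟦T⟧`, `ET x` the boundary ring) with the pole factor `pole E' x ∈ ET x`
  (`= ∏_{P ↦ x} (T - T(P)) ^ E'(P)`, only `pole_mono` is used) and three facts `disc_rat`,
  `disc_red`, `disc_div`;
* `Adm` : the ADMISSIBLE divisors, the only ones for which the disc facts are asked (intended: all
  points of `E'` have smooth reduction and are rational over the level `F₀`, so that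
  `pole E' x` is a finite product of `(T - c) ^ n`, `c` in the level constants; the level is
  chosen LAST, after `D`, `E₀`, `E₁`, so `-D`, `-D + E₀`, `-D + E₁` are admissible).

Results:

* `ExpPack.sec`, `ExpPack.toAnMod` : the interface `AnMod` of `FF3/B4/Contract.lean`;
* `ExpPack.mem_sec_neg_of_roots` (BRIDGE): a family `y` of `n`-th roots of `f` (`div f = n D`) on the
  components which is compatible at the nodes (`NodeCond`, literally the lead's
  `Glue.GlobalDatum.Compatible`) lies in `sec (-D)`, given the disc root lemma (L11) and the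
  factorisation of `f` on the discs; `ExpPack.resh_ne_zero_of_roots` : its residues do not vanish;
* `ExpPack.principal_of_roots` : hence `D` is principal (through `principalOfSection`).
-/

set_option autoImplicit false

namespace Fermat.Agent.FF3.B4

open AlgebraicCurve Fermat.Agent.Red Fermat.Agent.BR.SS Fermat.Agent.BR.GlueG

universe u₁ u₂ u₃ u₄ u₅ u₆ w

variable {K : Type u₁} {F : Type u₂} {k : Type u₃} [Field K] [Field F] [Algebra K F] [Field k]
  {A : ValuationSubring K} {π : A →+* k} {ι : Type u₄} {Ft : ι → Type u₅}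
  [∀ v, Field (Ft v)] [∀ v, Algebra k (Ft v)] {ν : Type u₆}

/-- **The component part of the expansion package** (= helper16's `DVCompl` at the valuation rings
`S.O v ∩ F₀`, see `FF3/B4/CompInst.lean`). -/
structure CompPack (S : SemistableSetup (F := F) A π ι Ft ν) (F₀ : Subfield F) (ϖ : F₀) where
  /-- the completion of `F₀` at the Gauss valuation of the component `v` -/
  Lh : ι → Type w
  [instField : ∀ v, Field (Lh v)]
  /-- its valuation ring -/
  Oh : ∀ v, ValuationSubring (Lh v)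
  emb : ∀ v, F₀ →+* Lh v
  emb_mem_iff : ∀ v (x : F₀), emb v x ∈ Oh v ↔ (x : F) ∈ S.O v
  resh : ∀ v, Oh v →+* Ft v
  resh_emb : ∀ v (x : F₀) (hx : (x : F) ∈ S.O v),
    resh v ⟨emb v x, (emb_mem_iff v x).2 hx⟩ = S.res v ⟨x, hx⟩
  /-- the uniformiser is integral on every component -/
  unif_mem : ∀ v, ((ϖ : F₀) : F) ∈ S.O v
  /-- the kernel of the residue map is generated by the uniformiser (`Oh v` is a DVR) -/
  ker_resh : ∀ v (y : Oh v), resh v y = 0 →
    ∃ y' : Oh v, y = ⟨emb v ϖ, (emb_mem_iff v ϖ).2 (unif_mem v)⟩ * y'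

attribute [instance] CompPack.instField

/-- **The abstract expansion package** (what D-B4 asks of D-B3). -/
structure ExpPack (S : SemistableSetup (F := F) A π ι Ft ν)
    (hdeg : ∀ v (Q : Place k (Ft v)), Q.deg = 1) (F₀ : Subfield F) (ϖ : F₀)
    extends CompPack.{u₁, u₂, u₃, u₄, u₅, u₆, w} S F₀ ϖ where
  /-- the node rings -/
  R : ν → Type w
  [instR : ∀ e, CommRing (R e)]
  /-- the boundary rings on the side of `src e` -/
  B1 : ν → Type w
  [instB1 : ∀ e, CommRing (B1 e)]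
  /-- the boundary rings on the side of `tgt e` -/
  B2 : ν → Type w
  [instB2 : ∀ e, CommRing (B2 e)]
  a1 : ∀ e, R e →+* B1 e
  a2 : ∀ e, R e →+* B2 e
  b1 : ∀ e, Oh (S.src e) →+* B1 e
  b2 : ∀ e, Oh (S.tgt e) →+* B2 e
  /-- a rational function integral on the two components through `e`, without poles in the tube
  of `e`, comes from the node ring -/
  node_rat : ∀ e (h : F₀) (h₁ : (h : F) ∈ S.O (S.src e)) (h₂ : (h : F) ∈ S.O (S.tgt e)),
    (∀ P, S.r P = ⟨S.src e, S.s₁ e⟩ → 0 ≤ P.ord (h : F)) →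
    ∃ r : R e, a1 e r = b1 e ⟨emb _ h, (emb_mem_iff _ h).2 h₁⟩ ∧
      a2 e r = b2 e ⟨emb _ h, (emb_mem_iff _ h).2 h₂⟩
  /-- Taylor on the residues: regular at the two branches, equal values -/
  node_red : ∀ e (r : R e) (y₁ : Oh (S.src e)) (y₂ : Oh (S.tgt e)),
    a1 e r = b1 e y₁ → a2 e r = b2 e y₂ →
    ∃ c : k, IsValueAt (S.s₁ e) (resh _ y₁) c ∧ IsValueAt (S.s₂ e) (resh _ y₂) c
  /-- saturation at the node (discreteness) -/
  node_div : ∀ e (r : R e) (y₁ : Oh (S.src e)) (y₂ : Oh (S.tgt e)),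
    a1 e r = b1 e (⟨emb _ ϖ, (emb_mem_iff _ ϖ).2 (unif_mem _)⟩ * y₁) →
    a2 e r = b2 e (⟨emb _ ϖ, (emb_mem_iff _ ϖ).2 (unif_mem _)⟩ * y₂) →
    ∃ r' : R e, a1 e r' = b1 e y₁ ∧ a2 e r' = b2 e y₂
  /-- the disc rings (`W⟦T⟧`) at the closed points of the components -/
  Dk : (Σ v, Place k (Ft v)) → Type w
  [instDk : ∀ x, CommRing (Dk x)]
  /-- the boundary rings of the discs -/
  ET : (Σ v, Place k (Ft v)) → Type w
  [instET : ∀ x, CommRing (ET x)]
  dT : ∀ x, Dk x →+* ET x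
  bT : ∀ x : Σ v, Place k (Ft v), Oh x.1 →+* ET x
  /-- the admissible divisors: all points have smooth reduction and are rational over the level
  `F₀` (so that the pole factors below are defined over the level) -/
  Adm : Divisor K F → Prop
  adm_smooth : ∀ {E' : Divisor K F}, Adm E' → ∀ P ∈ E'.support, S.IsSmoothPlace P
  /-- the pole factor `∏_{P ↦ x} (T - T(P)) ^ E'(P)` (used for admissible `E'` only) -/
  pole : Divisor K F → ∀ x, ET x
  pole_mono : ∀ {E' E'' : Divisor K F}, Adm E' → Adm E'' → E' ≤ E'' → ∀ x, ¬ S.IsBranch x →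
    ∃ p : Dk x, pole E'' x = pole E' x * dT x p
  disc_rat : ∀ (E' : Divisor K F), Adm E' → ∀ (x : Σ v, Place k (Ft v)), ¬ S.IsBranch x →
    ∀ (h : F₀) (hO : (h : F) ∈ S.O x.1), (h : F) ∈ riemannRochSpace E' →
    ∃ t : Dk x, dT x t = bT x ⟨emb x.1 h, (emb_mem_iff x.1 h).2 hO⟩ * pole E' x
  disc_red : ∀ (E' : Divisor K F), Adm E' →
    ∀ (x : Σ v, Place k (Ft v)), ¬ S.IsBranch x → ∀ (y : Oh x.1) (t : Dk x),
    dT x t = bT x y * pole E' x →
    resh x.1 y = 0 ∨ -(S.push E' x.1 x.2) ≤ x.2.ord (resh x.1 y)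
  disc_div : ∀ (E' : Divisor K F), Adm E' → ∀ (x : Σ v, Place k (Ft v)), ¬ S.IsBranch x →
    ∀ (y : Oh x.1) (t : Dk x),
    dT x t = bT x (⟨emb x.1 ϖ, (emb_mem_iff x.1 ϖ).2 (unif_mem x.1)⟩ * y) * pole E' x →
    ∃ t' : Dk x, dT x t' = bT x y * pole E' x

attribute [instance] ExpPack.instR ExpPack.instB1 ExpPack.instB2
  ExpPack.instDk ExpPack.instET

variable {S : SemistableSetup (F := F) A π ι Ft ν}
  {hdeg : ∀ v (Q : Place k (Ft v)), Q.deg = 1} {F₀ : Subfield F} {ϖ : F₀}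

namespace ExpPack

variable (X : ExpPack.{u₁, u₂, u₃, u₄, u₅, u₆, w} S hdeg F₀ ϖ)

/-- The uniformiser in `Oh v`. -/
def unif (v : ι) : X.Oh v := ⟨X.emb v ϖ, (X.emb_mem_iff v ϖ).2 (X.unif_mem v)⟩

/-- The element of `Oh v` attached to a rational function integral at `v`. -/
def ofRatAt (v : ι) (h : F₀) (hO : (h : F) ∈ S.O v) : X.Oh v :=
  ⟨X.emb v h, (X.emb_mem_iff v h).2 hO⟩

/-- **Compatibility at the nodes**: at every node the two members of the family come from ONE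
element of the node ring (= `Glue.GlobalDatum.Compatible` without the power condition). -/
def NodeCond (y : ∀ v, X.Oh v) : Prop :=
  ∀ e, ∃ r : X.R e, X.a1 e r = X.b1 e (y (S.src e)) ∧ X.a2 e r = X.b2 e (y (S.tgt e))

/-- **Regularity on the discs** with poles `≤ E'`. -/
def DiscCond (E' : Divisor K F) (y : ∀ v, X.Oh v) : Prop :=
  ∀ x : Σ v, Place k (Ft v), ¬ S.IsBranch x →
    ∃ t : X.Dk x, X.dT x t = X.bT x (y x.1) * X.pole E' x

end ExpPack

namespace ExpPack

variable (X : ExpPack.{u₁, u₂, u₃, u₄, u₅, u₆, w} S hdeg F₀ ϖ)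

theorem nodeCond_zero : X.NodeCond 0 := fun e => ⟨0, by simp, by simp⟩

theorem NodeCond.add {y z : ∀ v, X.Oh v} (hy : X.NodeCond y) (hz : X.NodeCond z) :
    X.NodeCond (y + z) := by
  intro e
  obtain ⟨r, h1, h2⟩ := hy e
  obtain ⟨r', h1', h2'⟩ := hz e
  exact ⟨r + r', by rw [map_add, h1, h1', Pi.add_apply, map_add],
    by rw [map_add, h2, h2', Pi.add_apply, map_add]⟩

theorem NodeCond.neg {y : ∀ v, X.Oh v} (hy : X.NodeCond y) : X.NodeCond (-y) := by
  intro e
  obtain ⟨r, h1, h2⟩ := hy e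
  exact ⟨-r, by rw [map_neg, h1, Pi.neg_apply, map_neg], by rw [map_neg, h2, Pi.neg_apply, map_neg]⟩

theorem discCond_zero (E' : Divisor K F) : X.DiscCond E' 0 :=
  fun x _ => ⟨0, by simp⟩

theorem DiscCond.add {E' : Divisor K F} {y z : ∀ v, X.Oh v} (hy : X.DiscCond E' y)
    (hz : X.DiscCond E' z) : X.DiscCond E' (y + z) := by
  intro x hx
  obtain ⟨t, ht⟩ := hy x hx
  obtain ⟨t', ht'⟩ := hz x hx
  exact ⟨t + t', by rw [map_add, ht, ht', Pi.add_apply, map_add, add_mul]⟩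

theorem DiscCond.neg {E' : Divisor K F} {y : ∀ v, X.Oh v} (hy : X.DiscCond E' y) :
    X.DiscCond E' (-y) := by
  intro x hx
  obtain ⟨t, ht⟩ := hy x hx
  exact ⟨-t, by rw [map_neg, ht, Pi.neg_apply, map_neg, neg_mul]⟩

theorem DiscCond.mono {E' E'' : Divisor K F} (hE' : X.Adm E') (hE'' : X.Adm E'') (h : E' ≤ E'')
    {y : ∀ v, X.Oh v} (hy : X.DiscCond E' y) : X.DiscCond E'' y := by
  intro x hx
  obtain ⟨t, ht⟩ := hy x hx
  obtain ⟨p, hp⟩ := X.pole_mono hE' hE'' h x hx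
  exact ⟨t * p, by rw [map_mul, ht, hp, mul_assoc]⟩

/-- **Integral analytic sections with poles `≤ E'`.** -/
def sec (E' : Divisor K F) : AddSubgroup (∀ v, X.Oh v) where
  carrier := {y | X.NodeCond y ∧ X.DiscCond E' y}
  zero_mem' := ⟨X.nodeCond_zero, X.discCond_zero E'⟩
  add_mem' := fun hy hz => ⟨hy.1.add X hz.1, hy.2.add X hz.2⟩
  neg_mem' := fun hy => ⟨hy.1.neg X, hy.2.neg X⟩

theorem mem_sec {E' : Divisor K F} {y : ∀ v, X.Oh v} :
    y ∈ X.sec E' ↔ X.NodeCond y ∧ X.DiscCond E' y := Iff.rfl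

theorem sec_mono {E' E'' : Divisor K F} (hE' : X.Adm E') (hE'' : X.Adm E'') (h : E' ≤ E'') :
    X.sec E' ≤ X.sec E'' :=
  fun _ hy => ⟨hy.1, hy.2.mono X hE' hE'' h⟩

/-- (i) -/
theorem rat_mem (E' : Divisor K F) (hadm : X.Adm E') (h : F₀)
    (hL : (h : F) ∈ riemannRochSpace E') (hO : (h : F) ∈ S.Oall) :
    (fun v => (⟨X.emb v h, (X.emb_mem_iff v h).2 (S.mem_Oall.1 hO v)⟩ : X.Oh v)) ∈ X.sec E' := by
  refine ⟨fun e => ?_, fun x hx => X.disc_rat E' hadm x hx h (S.mem_Oall.1 hO x.1) hL⟩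
  refine X.node_rat e h (S.mem_Oall.1 hO _) (S.mem_Oall.1 hO _) fun P hP => ?_
  have hns : ¬ S.IsSmoothPlace P := (S.not_isSmoothPlace_iff P).2 ⟨e, hP⟩
  have hE0 : E' P = 0 := by
    by_contra h0
    exact hns (X.adm_smooth hadm P (Finsupp.mem_support_iff.mpr h0))
  rcases (mem_riemannRochSpace_iff.1 hL P) with h0 | h1
  · rw [h0, Place.ord_zero]
  · rw [hE0, neg_zero] at h1
    exact h1

/-- (ii) -/
theorem red_mem (E' : Divisor K F) (hadm : X.Adm E')
    (hE : ∀ P ∈ E'.support, S.IsSmoothPlace P)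
    (z : ∀ v, X.Oh v) (hz : z ∈ X.sec E') :
    (fun v => X.resh v (z v)) ∈ gluedRR (S.graphNodes hdeg) (S.push E') := by
  have hnode := hz.1
  have hval : ∀ e, ∃ c : k, IsValueAt (S.s₁ e) (X.resh _ (z (S.src e))) c ∧
      IsValueAt (S.s₂ e) (X.resh _ (z (S.tgt e))) c := fun e => by
    obtain ⟨r, h1, h2⟩ := hnode e
    exact X.node_red e r _ _ h1 h2
  refine S.mem_gluedRR_of_forall_isValueAt hdeg (fun v => ?_) hval
  rw [mem_riemannRochSpace_iff]
  intro Q
  by_cases hQ : S.IsBranch ⟨v, Q⟩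
  · right
    rw [S.push_apply_of_isBranch hE hQ, neg_zero]
    obtain ⟨e, he | he⟩ := hQ
    · obtain ⟨rfl, h2⟩ := Sigma.mk.inj_iff.mp he
      obtain rfl := eq_of_heq h2
      obtain ⟨c, hc, -⟩ := hval e
      exact ord_nonneg_of_isValueAt hc
    · obtain ⟨rfl, h2⟩ := Sigma.mk.inj_iff.mp he
      obtain rfl := eq_of_heq h2
      obtain ⟨c, -, hc⟩ := hval e
      exact ord_nonneg_of_isValueAt hc
  · obtain ⟨t, ht⟩ := hz.2 ⟨v, Q⟩ hQ
    exact X.disc_red E' hadm ⟨v, Q⟩ hQ (z v) t ht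

/-- (iii) -/
theorem div_mem (E' : Divisor K F) (hadm : X.Adm E') (z : ∀ v, X.Oh v) (hz : z ∈ X.sec E')
    (h0 : ∀ v, X.resh v (z v) = 0) :
    ∃ z' ∈ X.sec E', ∀ v, ((z v : X.Oh v) : X.Lh v) = X.emb v ϖ * ((z' v : X.Oh v) : X.Lh v) := by
  choose z' hz' using fun v => X.ker_resh v (z v) (h0 v)
  refine ⟨z', ⟨fun e => ?_, fun x hx => ?_⟩, fun v => ?_⟩
  · obtain ⟨r, h1, h2⟩ := hz.1 e
    rw [hz' (S.src e)] at h1
    rw [hz' (S.tgt e)] at h2
    exact X.node_div e r _ _ h1 h2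
  · obtain ⟨t, ht⟩ := hz.2 x hx
    rw [hz' x.1] at ht
    exact X.disc_div E' hadm x hx _ t ht
  · rw [hz' v]
    rfl

/-- **The `AnMod` interface of D-B4 from an expansion package.** -/
def toAnMod : AnMod.{u₁, u₂, u₃, u₄, u₅, u₆, w} S hdeg F₀ ϖ where
  Lh := X.Lh
  Oh := X.Oh
  emb := X.emb
  emb_mem_iff := X.emb_mem_iff
  resh := X.resh
  resh_emb := X.resh_emb
  Adm := X.Adm
  sec := X.sec
  sec_mono := fun h' h'' h => X.sec_mono h' h'' h
  rat_mem := X.rat_mem
  red_mem := X.red_mem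
  div_mem := X.div_mem

/-! ### The bridge: compatible root families are sections of `O(-D)` -/

/-- **BRIDGE (B4-4 + output of D-B2 ⇒ input of D-B4).**  Let `f ∈ F₀` be integral on all
components, `y = (y_v)` a family of `n`-th roots of `f` in the completed valuation rings which is
compatible at the nodes (`NodeCond`: this is `Glue.GlobalDatum.Compatible` of the lead's D-B2).
Assume on every disc `x` (smooth closed point):

* `hfac` : `f · pole (-D) ^ n` is a unit `g` of the disc ring (`div f = n D`: the zeros and poles of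
  `f` in the disc are those of `pole D ^ n`; D-B3: normality of the finite-level local ring);
* `hroot` : the DISC ROOT LEMMA (L11): an `n`-th root in the boundary ring of a unit of the disc ring
  lies in the disc ring.

Then `y ∈ sec (-D)`. -/
theorem mem_sec_neg_of_roots (n : ℕ) (D : Divisor K F) (f : F₀) (hfO : (f : F) ∈ S.Oall)
    (y : ∀ v, X.Oh v)
    (hy : ∀ v, y v ^ n = ⟨X.emb v f, (X.emb_mem_iff v f).2 (S.mem_Oall.1 hfO v)⟩)
    (hnode : X.NodeCond y)
    (hfac : ∀ x : Σ v, Place k (Ft v), ¬ S.IsBranch x → ∃ g : X.Dk x, IsUnit g ∧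
      X.dT x g = X.bT x ⟨X.emb x.1 f, (X.emb_mem_iff x.1 f).2 (S.mem_Oall.1 hfO x.1)⟩ *
        X.pole (-D) x ^ n)
    (hroot : ∀ x : Σ v, Place k (Ft v), ¬ S.IsBranch x → ∀ g : X.Dk x, IsUnit g →
      ∀ u : X.ET x, u ^ n = X.dT x g → ∃ t : X.Dk x, X.dT x t = u) :
    y ∈ X.sec (-D) := by
  refine ⟨hnode, fun x hx => ?_⟩
  obtain ⟨g, hg, hfg⟩ := hfac x hx
  refine hroot x hx g hg _ ?_
  rw [mul_pow, ← map_pow, hy x.1, hfg]

/-- The residues of a root family of a function which is a unit on the component `v` do not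
vanish on `v`. -/
theorem resh_ne_zero_of_roots {n : ℕ} (hn : n ≠ 0) (f : F₀) (v : ι) (hfO : (f : F) ∈ S.O v)
    (hfu : S.res v ⟨f, hfO⟩ ≠ 0) (y : X.Oh v)
    (hy : y ^ n = ⟨X.emb v f, (X.emb_mem_iff v f).2 hfO⟩) : X.resh v y ≠ 0 := by
  intro h0
  have h1 : X.resh v (y ^ n) = S.res v ⟨f, hfO⟩ := by rw [hy, X.resh_emb]
  rw [map_pow, h0, zero_pow hn] at h1
  exact hfu h1.symm

/-- **D-B2 + B4-4 + D-B4 assembled**: a root family of `f` (`div f = n D` in the sense of `hfac`),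
compatible at the nodes, makes `D` principal. -/
theorem principal_of_roots (hA : IsRankOne A) (hF : RiemannPkg K F)
    (htwo : TwoLatticeProp A S.Oall)
    (hϖ : ∃ a : K, IsModulus A a ∧ ((ϖ : F₀) : F) = algebraMap K F a)
    (D E₀ E₁ : Divisor K F) (hdeg0 : Divisor.degree D = 0) (hE₀ : 0 ≤ E₀) (hE₁ : 0 ≤ E₁)
    (hdisj : ∀ P, E₀ P = 0 ∨ E₁ P = 0)
    (hDsm : ∀ P ∈ D.support, S.IsSmoothPlace P) (hE₀sm : ∀ P ∈ E₀.support, S.IsSmoothPlace P)
    (hE₁sm : ∀ P ∈ E₁.support, S.IsSmoothPlace P)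
    (hadm : X.Adm (-D)) (hadm₀ : X.Adm (-D + E₀)) (hadm₁ : X.Adm (-D + E₁))
    (hl₀ : RatLift S hdeg F₀ (-D + E₀)) (hl₁ : RatLift S hdeg F₀ (-D + E₁))
    {n : ℕ} (hn : n ≠ 0) (f : F₀) (hfO : (f : F) ∈ S.Oall)
    (hfu : ∃ v, S.res v ⟨f, S.mem_Oall.1 hfO v⟩ ≠ 0)
    (y : ∀ v, X.Oh v)
    (hy : ∀ v, y v ^ n = ⟨X.emb v f, (X.emb_mem_iff v f).2 (S.mem_Oall.1 hfO v)⟩)
    (hnode : X.NodeCond y)
    (hfac : ∀ x : Σ v, Place k (Ft v), ¬ S.IsBranch x → ∃ g : X.Dk x, IsUnit g ∧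
      X.dT x g = X.bT x ⟨X.emb x.1 f, (X.emb_mem_iff x.1 f).2 (S.mem_Oall.1 hfO x.1)⟩ *
        X.pole (-D) x ^ n)
    (hroot : ∀ x : Σ v, Place k (Ft v), ¬ S.IsBranch x → ∀ g : X.Dk x, IsUnit g →
      ∀ u : X.ET x, u ^ n = X.dT x g → ∃ t : X.Dk x, X.dT x t = u) :
    D ∈ Divisor.principal (K := K) (F := F) := by
  obtain ⟨v₀, hv₀⟩ := hfu
  exact principalOfSection X.toAnMod hA hF htwo hϖ D E₀ E₁ hdeg0 hE₀ hE₁ hdisj hDsm hE₀sm hE₁sm
    hadm hadm₀ hadm₁ hl₀ hl₁ y (X.mem_sec_neg_of_roots n D f hfO y hy hnode hfac hroot)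
    ⟨v₀, X.resh_ne_zero_of_roots hn f v₀ _ hv₀ (y v₀) (hy v₀)⟩

end ExpPack

end Fermat.Agent.FF3.B4
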