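import Mathlib
import Fermat.Agent.FF3.B4.Sec
import Fermat.Agent.FF3.DVCompl.API

/-!
# PROGRAMME I, block B4: the component part of the expansion package from the DV-completion
package (helper22; consumes helper16's `FF3/DVCompl`)

`F₀ ≤ F` the rational functions over the level, `ϖ : F₀` the uniformiser of the level.  For every
component `v` a `DVCompl.Datum F₀` whose valuation ring is `S.O v ∩ F₀` and whose uniformiser is `ϖ`
(D-B3, GAUSS-LOC: `S.O v ∩ F₀` is a DVR with uniformiser `ϖ`).  Then the completions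
`(D v).Lh ⊇ (D v).Oh` with the extended residue maps form a `CompPack`.
-/

set_option autoImplicit false

namespace Fermat.Agent.FF3.B4

open AlgebraicCurve Fermat.Agent.Red Fermat.Agent.BR.SS Fermat.Agent.FF3.DVCompl

universe u₁ u₂ u₃ u₄ u₅ u₆

variable {K : Type u₁} {F : Type u₂} {k : Type u₃} [Field K] [Field F] [Algebra K F] [Field k]
  {A : ValuationSubring K} {π : A →+* k} {ι : Type u₄} {Ft : ι → Type u₅}
  [∀ v, Field (Ft v)] [∀ v, Algebra k (Ft v)] {ν : Type u₆}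
  (S : SemistableSetup (F := F) A π ι Ft ν) {F₀ : Subfield F} {ϖ : F₀}

/-- The inclusion `S.O v ∩ F₀ → S.O v` for a datum with valuation ring `S.O v ∩ F₀`. -/
def inclO (D : Datum F₀) (v : ι) (hO : ∀ x : F₀, x ∈ D.O₀ ↔ (x : F) ∈ S.O v) : D.O₀ →+* S.O v where
  toFun x := ⟨((x : F₀) : F), (hO x).1 x.2⟩
  map_one' := rfl
  map_mul' _ _ := rfl
  map_zero' := rfl
  map_add' _ _ := rfl

/-- The residue map of the component `v` on `S.O v ∩ F₀`. -/
def resO (D : Datum F₀) (v : ι) (hO : ∀ x : F₀, x ∈ D.O₀ ↔ (x : F) ∈ S.O v) : D.O₀ →+* Ft v :=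
  (S.res v).comp (inclO S D v hO)

theorem resO_w₀ (D : Datum F₀) (v : ι) (hO : ∀ x : F₀, x ∈ D.O₀ ↔ (x : F) ∈ S.O v) :
    resO S D v hO D.w₀ = 0 := by
  show S.res v (inclO S D v hO D.w₀) = 0
  rw [S.res_eq_zero_iff]
  intro hu
  -- a unit of `S.O v` lying in `F₀` is a unit of `D.O₀`
  apply D.not_isUnit_w₀
  obtain ⟨u, hu⟩ := hu
  have hw0 : (D.w : F₀) ≠ 0 := D.w_ne_zero
  have hinv : ((D.w : F₀)⁻¹ : F₀) ∈ D.O₀ := by
    rw [hO]
    have h1 : (((u⁻¹ : (S.O v)ˣ) : S.O v) : F) = (((D.w : F₀)⁻¹ : F₀) : F) := by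
      have h2 : ((u : S.O v) : F) * (((u⁻¹ : (S.O v)ˣ) : S.O v) : F) = 1 := by
        rw [← Subring.coe_mul, Units.mul_inv]; rfl
      have h3 : ((u : S.O v) : F) = ((D.w : F₀) : F) := by rw [hu]; rfl
      rw [h3] at h2
      rw [Subfield.coe_inv]
      exact eq_inv_of_mul_eq_one_right h2
    rw [← h1]
    exact ((u⁻¹ : (S.O v)ˣ) : S.O v).2
  exact IsUnit.of_mul_eq_one (⟨(D.w : F₀)⁻¹, hinv⟩ : D.O₀)
    (Subtype.ext (mul_inv_cancel₀ hw0))

/-- **The component part from the DV-completion package.** -/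
noncomputable def CompPack.ofDatum (D : ι → Datum F₀)
    (hO : ∀ v (x : F₀), x ∈ (D v).O₀ ↔ (x : F) ∈ S.O v) (hw : ∀ v, (D v).w = ϖ) :
    CompPack.{u₁, u₂, u₃, u₄, u₅, u₆, u₂} S F₀ ϖ where
  Lh v := (D v).Lh
  Oh v := (D v).Oh
  emb v := (D v).emb
  emb_mem_iff v x := ((D v).emb_mem_iff x).trans (hO v x)
  resh v := (D v).resh (resO S (D v) v (hO v)) (resO_w₀ S (D v) v (hO v))
  resh_emb v x hx := (D v).resh_mk_emb (resO S (D v) v (hO v)) (resO_w₀ S (D v) v (hO v)) x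
    ((hO v x).2 hx)
  unif_mem v := by
    have := (D v).w_mem
    rw [hw v] at this
    exact (hO v ϖ).1 this
  ker_resh v y hy := by
    obtain ⟨y', hy'⟩ := ((D v).resh_eq_zero_iff_dvd (resO S (D v) v (hO v))
      (resO_w₀ S (D v) v (hO v)) y).1 hy
    refine ⟨y', ?_⟩
    rw [hy']
    congr 1
    apply Subtype.ext
    show (((D v).wh : (D v).Oh) : (D v).Lh) = (D v).emb ϖ
    rw [(D v).coe_wh, hw v]

end Fermat.Agent.FF3.B4
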