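import Mathlib
import Fermat.Agent.FF3.B4.Sec

/-!
# PROGRAMME I, block B4: the expansion package from its parts (helper22)

`ExpPack` (`FF3/B4/Sec.lean`) assembled from a component part `C : CompPack S F₀ ϖ`, one
`NodePart C e` per node and one `DiscPart C Adm x` per closed point of the special fibre, so that
the node instance (helper20's `ExpandBR` + the node ring) and the disc instance (helper25's
`ExpandDisc`) can be built independently and one node / one disc at a time.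
-/

set_option autoImplicit false

namespace Fermat.Agent.FF3.B4

open AlgebraicCurve Fermat.Agent.Red Fermat.Agent.BR.SS

universe u₁ u₂ u₃ u₄ u₅ u₆ w

variable {K : Type u₁} {F : Type u₂} {k : Type u₃} [Field K] [Field F] [Algebra K F] [Field k]
  {A : ValuationSubring K} {π : A →+* k} {ι : Type u₄} {Ft : ι → Type u₅}
  [∀ v, Field (Ft v)] [∀ v, Algebra k (Ft v)] {ν : Type u₆}
  {S : SemistableSetup (F := F) A π ι Ft ν} {F₀ : Subfield F} {ϖ : F₀}

/-- The uniformiser in `C.Oh v`. -/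
def CompPack.unif (C : CompPack.{u₁, u₂, u₃, u₄, u₅, u₆, w} S F₀ ϖ) (v : ι) : C.Oh v :=
  ⟨C.emb v ϖ, (C.emb_mem_iff v ϖ).2 (C.unif_mem v)⟩

/-- The element of `C.Oh v` attached to a rational function integral at `v`. -/
def CompPack.ofRatAt (C : CompPack.{u₁, u₂, u₃, u₄, u₅, u₆, w} S F₀ ϖ) (v : ι) (h : F₀)
    (hO : (h : F) ∈ S.O v) : C.Oh v :=
  ⟨C.emb v h, (C.emb_mem_iff v h).2 hO⟩

/-- **The node part of the expansion package at the node `e`.** -/
structure NodePart (C : CompPack.{u₁, u₂, u₃, u₄, u₅, u₆, w} S F₀ ϖ) (e : ν) where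
  /-- the node ring -/
  R : Type w
  [instR : CommRing R]
  /-- the boundary ring on the side of `src e` -/
  B1 : Type w
  [instB1 : CommRing B1]
  /-- the boundary ring on the side of `tgt e` -/
  B2 : Type w
  [instB2 : CommRing B2]
  a1 : R →+* B1
  a2 : R →+* B2
  b1 : C.Oh (S.src e) →+* B1
  b2 : C.Oh (S.tgt e) →+* B2
  node_rat : ∀ (h : F₀) (h₁ : (h : F) ∈ S.O (S.src e)) (h₂ : (h : F) ∈ S.O (S.tgt e)),
    (∀ P, S.r P = ⟨S.src e, S.s₁ e⟩ → 0 ≤ P.ord (h : F)) →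
    ∃ r : R, a1 r = b1 (C.ofRatAt _ h h₁) ∧ a2 r = b2 (C.ofRatAt _ h h₂)
  node_red : ∀ (r : R) (y₁ : C.Oh (S.src e)) (y₂ : C.Oh (S.tgt e)),
    a1 r = b1 y₁ → a2 r = b2 y₂ →
    ∃ c : k, IsValueAt (S.s₁ e) (C.resh _ y₁) c ∧ IsValueAt (S.s₂ e) (C.resh _ y₂) c
  node_div : ∀ (r : R) (y₁ : C.Oh (S.src e)) (y₂ : C.Oh (S.tgt e)),
    a1 r = b1 (C.unif _ * y₁) → a2 r = b2 (C.unif _ * y₂) →
    ∃ r' : R, a1 r' = b1 y₁ ∧ a2 r' = b2 y₂

attribute [instance] NodePart.instR NodePart.instB1 NodePart.instB2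

/-- **The disc part of the expansion package at the closed point `x`** (relative to a notion `Adm`
of admissible divisors). -/
structure DiscPart (C : CompPack.{u₁, u₂, u₃, u₄, u₅, u₆, w} S F₀ ϖ)
    (Adm : Divisor K F → Prop) (x : Σ v, Place k (Ft v)) where
  /-- the disc ring -/
  Dk : Type w
  [instDk : CommRing Dk]
  /-- the boundary ring -/
  ET : Type w
  [instET : CommRing ET]
  dT : Dk →+* ET
  bT : C.Oh x.1 →+* ET
  /-- the pole factor -/
  pole : Divisor K F → ET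
  pole_mono : ∀ {E' E'' : Divisor K F}, Adm E' → Adm E'' → E' ≤ E'' → ¬ S.IsBranch x →
    ∃ p : Dk, pole E'' = pole E' * dT p
  disc_rat : ∀ (E' : Divisor K F), Adm E' → ¬ S.IsBranch x →
    ∀ (h : F₀) (hO : (h : F) ∈ S.O x.1), (h : F) ∈ riemannRochSpace E' →
    ∃ t : Dk, dT t = bT (C.ofRatAt x.1 h hO) * pole E'
  disc_red : ∀ (E' : Divisor K F), Adm E' → ¬ S.IsBranch x → ∀ (y : C.Oh x.1) (t : Dk),
    dT t = bT y * pole E' →
    C.resh x.1 y = 0 ∨ -(S.push E' x.1 x.2) ≤ x.2.ord (C.resh x.1 y)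
  disc_div : ∀ (E' : Divisor K F), Adm E' → ¬ S.IsBranch x → ∀ (y : C.Oh x.1) (t : Dk),
    dT t = bT (C.unif x.1 * y) * pole E' → ∃ t' : Dk, dT t' = bT y * pole E'

attribute [instance] DiscPart.instDk DiscPart.instET

/-- **The expansion package from its parts.** -/
def ExpPack.ofParts (hdeg : ∀ v (Q : Place k (Ft v)), Q.deg = 1)
    (C : CompPack.{u₁, u₂, u₃, u₄, u₅, u₆, w} S F₀ ϖ) (Adm : Divisor K F → Prop)
    (adm_smooth : ∀ {E' : Divisor K F}, Adm E' → ∀ P ∈ E'.support, S.IsSmoothPlace P)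
    (N : ∀ e, NodePart C e) (Dd : ∀ x, DiscPart C Adm x) :
    ExpPack.{u₁, u₂, u₃, u₄, u₅, u₆, w} S hdeg F₀ ϖ where
  toCompPack := C
  R e := (N e).R
  B1 e := (N e).B1
  B2 e := (N e).B2
  a1 e := (N e).a1
  a2 e := (N e).a2
  b1 e := (N e).b1
  b2 e := (N e).b2
  node_rat e := (N e).node_rat
  node_red e := (N e).node_red
  node_div e := (N e).node_div
  Dk x := (Dd x).Dk
  ET x := (Dd x).ET
  dT x := (Dd x).dT
  bT x := (Dd x).bT
  Adm := Adm
  adm_smooth := adm_smooth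
  pole E' x := (Dd x).pole E'
  pole_mono h' h'' h x hx := (Dd x).pole_mono h' h'' h hx
  disc_rat E' h' x hx := (Dd x).disc_rat E' h' hx
  disc_red E' h' x hx := (Dd x).disc_red E' h' hx
  disc_div E' h' x hx := (Dd x).disc_div E' h' hx

end Fermat.Agent.FF3.B4
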