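import Mathlib
import Fermat.Agent.Red.Values

/-!
# PROGRAMME I, block B4: values and regularity of residues from expansions (helper22)

Abstract core of the facts `node_red` / `disc_red` of `ExpPack` (`FF3/B4/Sec.lean`).  ONE SIDE of a
node (or a disc):

```
      R --ℓ--> O --resh--> Ft          R   the finite-level local ring (rational functions),
      |        |                       O   the completed valuation ring of the component,
      ex       b                       B   the node ring (or the disc ring),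
      v        v                       E   the boundary ring,
      B --toE--> E                     J ⊂ B the kernel of the reduction (`(ϖ, Y)` resp. `(ϖ)`),
                                       X ∈ B the coordinate which survives in `B / J`.
```

Hypotheses, all per side, all in the literal shape of D-B3's deliverables:
`hcomm` (the square commutes on `R`), `hAM` (`toE g ∈ ϖ E → g ∈ J`: (AM)), `htaylor` (helper20's
`taylorX`: for `ρ ∈ R` with nonzero residue, `ex ρ ≡ X ^ n ex s (mod J)`, `s` a unit, `n` the order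
of the residue at the branch `Q`), `hunit` (`ex s - X g ∉ J` for units `s`), `J` prime, `X ∉ J`.

* `ord_sub_pos` (core): if `toE r = b y`, `y ≡ α / σ (mod ϖ)` with `α, σ ∈ R`, and `r ≡ ex ρ`
  modulo `J + X ^ N`, `N > ord_Q (res σ)`, then `resh y` and `res ρ` agree to positive order at `Q`;
* `isValueAt_of_expand` : hence they have the same value at `Q`;
* `exists_isValueAt_of_expand_two` (**node_red**): two sides with a common `R` and a common
  approximant `ρ`; the common value is that of `ρ` (main's `node_match` for rational functions);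
* `adicValuation_le_one_of_expand` (**disc_red**, regularity part).
-/

set_option autoImplicit false

namespace Fermat.Agent.FF3.B4

open AlgebraicCurve Fermat.Agent.Red

section OneSide

variable {k Ft : Type*} [Field k] [Field Ft] [Algebra k Ft] (Q : Place k Ft)
  {O R B E : Type*} [CommRing O] [CommRing R] [CommRing B] [CommRing E]
  (resh : O →+* Ft) (ϖ : O) (ℓ : R →+* O) (ex : R →+* B) (toE : B →+* E) (b : O →+* E)
  (J : Ideal B) (X : B)

/-- The hypotheses on one side of a node (or on a disc). -/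
structure SideHyp : Prop where
  resh_unif : resh ϖ = 0
  comm : ∀ ρ : R, b (ℓ ρ) = toE (ex ρ)
  prime : J.IsPrime
  X_notMem : X ∉ J
  am : ∀ g : B, (∃ z : E, toE g = b ϖ * z) → g ∈ J
  taylor : ∀ ρ : R, resh (ℓ ρ) ≠ 0 →
    ∃ (n : ℕ) (s : R), IsUnit s ∧ Q.ord (resh (ℓ ρ)) = n ∧ ex ρ - X ^ n * ex s ∈ J
  unit : ∀ s : R, IsUnit s → ∀ g : B, ex s - X * g ∉ J

variable {Q resh ϖ ℓ ex toE b J X}

theorem SideHyp.ord_nonneg (H : SideHyp Q resh ϖ ℓ ex toE b J X) {ρ : R}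
    (hρ : resh (ℓ ρ) ≠ 0) : 0 ≤ Q.ord (resh (ℓ ρ)) := by
  obtain ⟨n, s, -, hn, -⟩ := H.taylor ρ hρ
  rw [hn]
  exact Int.natCast_nonneg n

/-- **Core.** -/
theorem SideHyp.ord_sub_pos (H : SideHyp Q resh ϖ ℓ ex toE b J X) {r : B} {y : O}
    (hry : toE r = b y) {α σ : R} (hσ : resh (ℓ σ) ≠ 0) {y' : O}
    (hy : y * ℓ σ = ℓ α + ϖ * y') {N : ℕ} (hN : Q.ord (resh (ℓ σ)) < N) {ρ : R} {g' : B}
    (hρ : r - ex ρ - X ^ N * g' ∈ J) :
    resh y = resh (ℓ ρ) ∨ 0 < Q.ord (resh y - resh (ℓ ρ)) := by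
  haveI := H.prime
  -- `r * ex σ - ex α ∈ J`
  have h1 : r * ex σ - ex α ∈ J := by
    refine H.am _ ⟨b y', ?_⟩
    rw [map_sub, map_mul, hry, ← H.comm, ← H.comm, ← map_mul, ← map_sub, hy, add_sub_cancel_left,
      map_mul]
  -- `τ = α - ρ σ`
  set τ : R := α - ρ * σ with hτ
  have h2 : ex τ - X ^ N * (g' * ex σ) ∈ J := by
    have e : ex τ - X ^ N * (g' * ex σ) =
        -(r * ex σ - ex α) + (r - ex ρ - X ^ N * g') * ex σ := by
      rw [hτ, map_sub, map_mul]; ring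
    rw [e]
    exact J.add_mem (J.neg_mem h1) (J.mul_mem_right _ hρ)
  -- residues
  have h3 : resh y * resh (ℓ σ) = resh (ℓ α) := by
    have := congrArg resh hy
    rwa [map_mul, map_add, map_mul, H.resh_unif, zero_mul, add_zero] at this
  have h4 : (resh y - resh (ℓ ρ)) * resh (ℓ σ) = resh (ℓ τ) := by
    rw [hτ, map_sub, map_sub, map_mul, map_mul, sub_mul, h3]
  by_cases h0 : resh (ℓ τ) = 0
  · left
    rw [h0] at h4
    rcases mul_eq_zero.1 h4 with h5 | h5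
    · exact sub_eq_zero.1 h5
    · exact absurd h5 hσ
  · right
    obtain ⟨n, s, hs, hn, hns⟩ := H.taylor τ h0
    -- `N ≤ n`
    have hNn : N ≤ n := by
      by_contra hlt
      rw [not_le] at hlt
      obtain ⟨d, rfl⟩ : ∃ d, N = n + (d + 1) := ⟨N - n - 1, by omega⟩
      have h5 : X ^ n * (ex s - X * (X ^ d * (g' * ex σ))) ∈ J := by
        have e : X ^ n * (ex s - X * (X ^ d * (g' * ex σ))) =
            -(ex τ - X ^ n * ex s) + (ex τ - X ^ (n + (d + 1)) * (g' * ex σ)) := by ring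
        rw [e]
        exact J.add_mem (J.neg_mem hns) h2
      rcases H.prime.mem_or_mem h5 with h6 | h6
      · exact H.X_notMem (H.prime.mem_of_pow_mem n h6)
      · exact H.unit s hs _ h6
    have hd0 : resh y - resh (ℓ ρ) ≠ 0 := by
      intro h
      rw [h, zero_mul] at h4
      exact h0 h4.symm
    have h5 := Q.ord_mul hd0 hσ
    rw [h4, hn] at h5
    have : (N : ℤ) ≤ n := by exact_mod_cast hNn
    omega

/-- **Values transfer.** -/
theorem SideHyp.isValueAt_of_expand (H : SideHyp Q resh ϖ ℓ ex toE b J X) {r : B} {y : O}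
    (hry : toE r = b y) {α σ : R} (hσ : resh (ℓ σ) ≠ 0) {y' : O}
    (hy : y * ℓ σ = ℓ α + ϖ * y') {N : ℕ} (hN : Q.ord (resh (ℓ σ)) < N) {ρ : R} {g' : B}
    (hρ : r - ex ρ - X ^ N * g' ∈ J) {c : k} (hc : IsValueAt Q (resh (ℓ ρ)) c) :
    IsValueAt Q (resh y) c := by
  have h0 : IsValueAt Q (resh y - resh (ℓ ρ)) 0 := by
    rw [isValueAt_iff, map_zero, sub_zero]
    rcases H.ord_sub_pos hry hσ hy hN hρ with h | h
    · left; exact sub_eq_zero.2 h
    · right; exact h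
  have := h0.add hc
  rwa [sub_add_cancel, zero_add] at this

/-- **Regularity** (disc case): the residue of `y` is regular at `Q` as soon as the residues of the
elements of `R` are. -/
theorem SideHyp.adicValuation_le_one_of_expand (H : SideHyp Q resh ϖ ℓ ex toE b J X)
    (hdens1 : ∀ y : O, ∃ α σ : R, resh (ℓ σ) ≠ 0 ∧ ∃ y' : O, y * ℓ σ = ℓ α + ϖ * y')
    (hdens2 : ∀ (g : B) (N : ℕ), ∃ (ρ : R) (g' : B), g - ex ρ - X ^ N * g' ∈ J)
    (hreg : ∀ ρ : R, Q.adicValuation (resh (ℓ ρ)) ≤ 1)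
    {r : B} {y : O} (hry : toE r = b y) : Q.adicValuation (resh y) ≤ 1 := by
  obtain ⟨α, σ, hσ, y', hy⟩ := hdens1 y
  have hσ0 := H.ord_nonneg hσ
  obtain ⟨ρ, g', hρ⟩ := hdens2 r (Q.ord (resh (ℓ σ))).toNat.succ
  have hN : Q.ord (resh (ℓ σ)) < ((Q.ord (resh (ℓ σ))).toNat.succ : ℕ) := by
    have := Int.toNat_of_nonneg hσ0
    push_cast
    omega
  have hd : Q.adicValuation (resh y - resh (ℓ ρ)) ≤ 1 := by
    rw [Place.adicValuation_le_one_iff]
    rcases H.ord_sub_pos hry hσ hy hN hρ with h | h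
    · left; exact sub_eq_zero.2 h
    · right; exact h.le
  have e : resh y = (resh y - resh (ℓ ρ)) + resh (ℓ ρ) := by ring
  rw [e]
  exact (Valuation.map_add _ _ _).trans (max_le hd (hreg ρ))

end OneSide

section TwoSides

variable {k : Type*} [Field k] {Ft₁ Ft₂ : Type*} [Field Ft₁] [Algebra k Ft₁] [Field Ft₂]
  [Algebra k Ft₂] {Q₁ : Place k Ft₁} {Q₂ : Place k Ft₂}
  {O₁ O₂ R B E₁ E₂ : Type*} [CommRing O₁] [CommRing O₂] [CommRing R] [CommRing B] [CommRing E₁]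
  [CommRing E₂]
  {resh₁ : O₁ →+* Ft₁} {resh₂ : O₂ →+* Ft₂} {ϖ₁ : O₁} {ϖ₂ : O₂} {ℓ₁ : R →+* O₁} {ℓ₂ : R →+* O₂}
  {ex : R →+* B} {toX : B →+* E₁} {toY : B →+* E₂} {b₁ : O₁ →+* E₁} {b₂ : O₂ →+* E₂}
  {J₂ J₁ : Ideal B} {X Y : B}

/-- **node_red, abstract form.**  `H₁` : the side of `src e` (kernel `J₂ = (ϖ, Y)`, coordinate `X`);
`H₂` : the side of `tgt e` (kernel `J₁ = (ϖ, X)`, coordinate `Y`).  `hdens` : the image of `R` is
dense in the node ring for the `(ϖ, X, Y)`-adic topology (helper20's `NodeExpDense`);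
`hmatch` : main's `node_match` for the rational functions of the level. -/
theorem exists_isValueAt_of_expand_two
    (H₁ : SideHyp Q₁ resh₁ ϖ₁ ℓ₁ ex toX b₁ J₂ X) (H₂ : SideHyp Q₂ resh₂ ϖ₂ ℓ₂ ex toY b₂ J₁ Y)
    (hdens1 : ∀ y : O₁, ∃ α σ : R, resh₁ (ℓ₁ σ) ≠ 0 ∧ ∃ y' : O₁, y * ℓ₁ σ = ℓ₁ α + ϖ₁ * y')
    (hdens2 : ∀ y : O₂, ∃ α σ : R, resh₂ (ℓ₂ σ) ≠ 0 ∧ ∃ y' : O₂, y * ℓ₂ σ = ℓ₂ α + ϖ₂ * y')
    (hdens : ∀ (g : B) (N : ℕ), ∃ (ρ : R) (g' g'' : B),
      g - ex ρ - X ^ N * g' ∈ J₂ ∧ g - ex ρ - Y ^ N * g'' ∈ J₁)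
    (hmatch : ∀ ρ : R, ∃ c : k, IsValueAt Q₁ (resh₁ (ℓ₁ ρ)) c ∧ IsValueAt Q₂ (resh₂ (ℓ₂ ρ)) c)
    {r : B} {y₁ : O₁} {y₂ : O₂} (h₁ : toX r = b₁ y₁) (h₂ : toY r = b₂ y₂) :
    ∃ c : k, IsValueAt Q₁ (resh₁ y₁) c ∧ IsValueAt Q₂ (resh₂ y₂) c := by
  obtain ⟨α₁, σ₁, hσ₁, y₁', hy₁⟩ := hdens1 y₁
  obtain ⟨α₂, σ₂, hσ₂, y₂', hy₂⟩ := hdens2 y₂
  have hn₁ := H₁.ord_nonneg hσ₁
  have hn₂ := H₂.ord_nonneg hσ₂
  set N : ℕ := (Q₁.ord (resh₁ (ℓ₁ σ₁))).toNat + (Q₂.ord (resh₂ (ℓ₂ σ₂))).toNat + 1 with hNdef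
  have hN₁ : Q₁.ord (resh₁ (ℓ₁ σ₁)) < N := by
    have := Int.toNat_of_nonneg hn₁
    rw [hNdef]; push_cast; omega
  have hN₂ : Q₂.ord (resh₂ (ℓ₂ σ₂)) < N := by
    have := Int.toNat_of_nonneg hn₂
    rw [hNdef]; push_cast; omega
  obtain ⟨ρ, g', g'', hρ₁, hρ₂⟩ := hdens r N
  obtain ⟨c, hc₁, hc₂⟩ := hmatch ρ
  exact ⟨c, H₁.isValueAt_of_expand h₁ hσ₁ hy₁ hN₁ hρ₁ hc₁,
    H₂.isValueAt_of_expand h₂ hσ₂ hy₂ hN₂ hρ₂ hc₂⟩

end TwoSides

section Saturation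

variable {R B E₁ E₂ O₁ O₂ : Type*} [CommRing R] [CommRing B] [CommRing E₁] [CommRing E₂]
  [CommRing O₁] [CommRing O₂]

/-- **node_div, abstract form**: `(NORM)` (an element of the node ring divisible by `ϖ` in both
boundary rings is divisible by `ϖ`) and cancellation of `ϖ` in the boundary rings. -/
theorem exists_of_unif_mul {toX : B →+* E₁} {toY : B →+* E₂} {b₁ : O₁ →+* E₁} {b₂ : O₂ →+* E₂}
    {ϖB : B} {ϖ₁ : O₁} {ϖ₂ : O₂} (hϖ₁ : toX ϖB = b₁ ϖ₁) (hϖ₂ : toY ϖB = b₂ ϖ₂)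
    (hnorm : ∀ r : B, (∃ z : E₁, toX r = toX ϖB * z) → (∃ z : E₂, toY r = toY ϖB * z) →
      ∃ r' : B, r = ϖB * r')
    (hc₁ : ∀ z z' : E₁, toX ϖB * z = toX ϖB * z' → z = z')
    (hc₂ : ∀ z z' : E₂, toY ϖB * z = toY ϖB * z' → z = z')
    {r : B} {y₁ : O₁} {y₂ : O₂} (h₁ : toX r = b₁ (ϖ₁ * y₁)) (h₂ : toY r = b₂ (ϖ₂ * y₂)) :
    ∃ r' : B, toX r' = b₁ y₁ ∧ toY r' = b₂ y₂ := by
  rw [map_mul, ← hϖ₁] at h₁
  rw [map_mul, ← hϖ₂] at h₂
  obtain ⟨r', rfl⟩ := hnorm r ⟨_, h₁⟩ ⟨_, h₂⟩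
  rw [map_mul] at h₁ h₂
  exact ⟨r', hc₁ _ _ h₁, hc₂ _ _ h₂⟩

end Saturation

end Fermat.Agent.FF3.B4
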